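import Mathlib

/-!
# Row LT, tower A2: ADELIC BASE CHANGE `𝔸_K → 𝔸_L` (pre-leaf for `A2.02 TorusCharC`)

OFF-MAIN (helper743).  Mathlib only.  For an arbitrary extension `L / K` of number fields:

* `infUnder743`, `finUnder743` : the place of `K` under an infinite / a finite place of `L`.
* `infLoc743 u : K_v → L_u`, `finLoc743 w : K_v → L_w` : the local maps (completions of
  `algebraMap K L`; Mathlib `NumberField.LiesOver.completionMap`,
  `HeightOneSpectrum.uniformContinuous_algebraMap_liesOver`), continuous, compatible with the
  global elements (`infLoc_coe743`, `finLoc_coe743`), and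
  `valued_finLoc743 : Valued.v (finLoc743 K L w c) = Valued.v c ^ e(w | v)`.
* `bcAdele743 K L : 𝔸_K →+* 𝔸_L` : the base change of adeles, `continuous_bcAdele743`,
  `bcAdele_algebraMap743 : bc (x) = (algebraMap K L x)` on principal adeles,
  `bcAdele_fst743`, `bcAdele_snd743` : the components of `bc a` at `u`, `w` are the images of the
  components of `a` at the places under `u`, `w`.
* `bcUnits743 K L : 𝔸_Kˣ →* 𝔸_Lˣ` and its continuity.
-/

set_option autoImplicit false
set_option linter.unusedSectionVars false

open IsDedekindDomain NumberField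

noncomputable section

namespace Fermat.Agent.LT.A2.H743

variable (K L : Type) [Field K] [NumberField K] [Field L] [NumberField L] [Algebra K L]

/-! ## Infinite places -/

/-- The infinite place of `K` under the infinite place `u` of `L`. -/
def infUnder743 (u : InfinitePlace L) : InfinitePlace K := u.comap (algebraMap K L)

instance infUnder_liesOver743 (u : InfinitePlace L) : u.LiesOver (infUnder743 K L u) :=
  ⟨rfl⟩

/-- The local map `K_v → L_u` at an infinite place `u` of `L`, `v` the place under `u`. -/
def infLoc743 (u : InfinitePlace L) : (infUnder743 K L u).Completion →+* u.Completion :=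
  NumberField.LiesOver.completionMap

theorem continuous_infLoc743 (u : InfinitePlace L) : Continuous (infLoc743 K L u) :=
  NumberField.LiesOver.continuous_completionMap

open scoped NumberField.LiesOver in
theorem infLoc_coe743 (u : InfinitePlace L) (x : K) :
    infLoc743 K L u (algebraMap K (infUnder743 K L u).Completion x)
      = algebraMap L u.Completion (algebraMap K L x) := by
  have h := IsScalarTower.algebraMap_apply K (infUnder743 K L u).Completion u.Completion x
  have h2 : algebraMap K u.Completion x = algebraMap L u.Completion (algebraMap K L x) := rfl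
  rw [← h2, h]
  rfl

/-- Base change of the infinite adeles. -/
def infBC743 : InfiniteAdeleRing K →+* InfiniteAdeleRing L :=
  RingHom.pi fun u => (infLoc743 K L u).comp (Pi.evalRingHom _ (infUnder743 K L u))

theorem infBC_apply743 (a : InfiniteAdeleRing K) (u : InfinitePlace L) :
    infBC743 K L a u = infLoc743 K L u (a (infUnder743 K L u)) := rfl

theorem continuous_infBC743 : Continuous (infBC743 K L) :=
  continuous_pi fun u => (continuous_infLoc743 K L u).comp (continuous_apply _)

/-! ## Finite places -/

/-- The finite place of `K` under the finite place `w` of `L`. -/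
def finUnder743 (w : HeightOneSpectrum (𝓞 L)) : HeightOneSpectrum (𝓞 K) where
  asIdeal := w.asIdeal.under (𝓞 K)
  isPrime := inferInstance
  ne_bot := Ideal.under_ne_bot (𝓞 K) w.ne_bot

instance finUnder_liesOver743 (w : HeightOneSpectrum (𝓞 L)) :
    w.asIdeal.LiesOver (finUnder743 K L w).asIdeal := ⟨rfl⟩

/-- The map `K → L` between the valued fields. -/
def valMap743 (w : HeightOneSpectrum (𝓞 L)) :
    WithVal ((finUnder743 K L w).valuation K) →+* WithVal (w.valuation L) :=
  algebraMap (WithVal ((finUnder743 K L w).valuation K)) (WithVal (w.valuation L))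

theorem continuous_valMap743 (w : HeightOneSpectrum (𝓞 L)) : Continuous (valMap743 K L w) :=
  (HeightOneSpectrum.uniformContinuous_algebraMap_liesOver K L (finUnder743 K L w) w).continuous

/-- The local map `K_v → L_w` at a finite place `w` of `L`, `v` the place under `w`. -/
def finLoc743 (w : HeightOneSpectrum (𝓞 L)) :
    (finUnder743 K L w).adicCompletion K →+* w.adicCompletion L :=
  ((HeightOneSpectrum.adicCompletion.equiv L w).symm.toRingHom.comp
    (UniformSpace.Completion.mapRingHom (valMap743 K L w) (continuous_valMap743 K L w))).comp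
    (HeightOneSpectrum.adicCompletion.equiv K (finUnder743 K L w)).toRingHom

theorem finLoc_apply743 (w : HeightOneSpectrum (𝓞 L))
    (c : (finUnder743 K L w).adicCompletion K) :
    finLoc743 K L w c = HeightOneSpectrum.adicCompletion.ofCompletion
      (UniformSpace.Completion.mapRingHom (valMap743 K L w) (continuous_valMap743 K L w)
        c.toCompletion) := rfl

theorem continuous_finLoc743 (w : HeightOneSpectrum (𝓞 L)) : Continuous (finLoc743 K L w) :=
  (HeightOneSpectrum.adicCompletion.continuous_ofCompletion L w).comp
    (UniformSpace.Completion.continuous_map.comp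
      (HeightOneSpectrum.adicCompletion.continuous_toCompletion K (finUnder743 K L w)))

theorem finLoc_coe743 (w : HeightOneSpectrum (𝓞 L)) (x : K) :
    finLoc743 K L w ((x : K) : (finUnder743 K L w).adicCompletion K)
      = ((algebraMap K L x : L) : w.adicCompletion L) := by
  rw [finLoc_apply743]
  apply HeightOneSpectrum.adicCompletion.ext
  exact UniformSpace.Completion.mapRingHom_coe (continuous_valMap743 K L w) _

/-- The ramification index of `w` over the place under it. -/
def ramIdx743 (w : HeightOneSpectrum (𝓞 L)) : ℕ :=
  (finUnder743 K L w).asIdeal.ramificationIdx' w.asIdeal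

theorem ramIdx_ne_zero743 (w : HeightOneSpectrum (𝓞 L)) : ramIdx743 K L w ≠ 0 :=
  Ideal.IsDedekindDomain.ramificationIdx'_ne_zero_of_liesOver w.asIdeal (finUnder743 K L w).ne_bot

open WithZeroTopology in
/-- The valuation of the image under the local map. -/
theorem valued_finLoc743 (w : HeightOneSpectrum (𝓞 L))
    (c : (finUnder743 K L w).adicCompletion K) :
    Valued.v (finLoc743 K L w c) = Valued.v c ^ ramIdx743 K L w := by
  have h1 : Continuous fun c : (finUnder743 K L w).adicCompletion K =>
      Valued.v (finLoc743 K L w c) :=
    (Valued.continuous_valuation_of_surjective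
      (HeightOneSpectrum.valuedAdicCompletion_surjective L w)).comp (continuous_finLoc743 K L w)
  have h2 : Continuous fun c : (finUnder743 K L w).adicCompletion K =>
      Valued.v c ^ ramIdx743 K L w :=
    (Valued.continuous_valuation_of_surjective
      (HeightOneSpectrum.valuedAdicCompletion_surjective K (finUnder743 K L w))).pow _
  have hd : DenseRange (algebraMap K ((finUnder743 K L w).adicCompletion K)) :=
    (finUnder743 K L w).denseRange_algebraMap K
  have heq : (fun c : (finUnder743 K L w).adicCompletion K => Valued.v (finLoc743 K L w c)) ∘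
      (algebraMap K ((finUnder743 K L w).adicCompletion K))
      = (fun c : (finUnder743 K L w).adicCompletion K => Valued.v c ^ ramIdx743 K L w) ∘
      (algebraMap K ((finUnder743 K L w).adicCompletion K)) := by
    funext x
    show Valued.v (finLoc743 K L w ((x : K) : (finUnder743 K L w).adicCompletion K))
      = Valued.v ((x : K) : (finUnder743 K L w).adicCompletion K) ^ ramIdx743 K L w
    rw [finLoc_coe743, HeightOneSpectrum.adicCompletion.valued_coe,
      HeightOneSpectrum.adicCompletion.valued_coe]
    exact (HeightOneSpectrum.valuation_liesOver L (finUnder743 K L w) w x).symm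
  exact congrFun (hd.equalizer h1 h2 heq) c

theorem finite_fiber_finUnder743 (v : HeightOneSpectrum (𝓞 K)) :
    (finUnder743 K L ⁻¹' {v}).Finite := by
  have hfin : (v.asIdeal.primesOver (𝓞 L)).Finite :=
    Algebra.QuasiFinite.finite_primesOver v.asIdeal
  refine Set.Finite.of_finite_image (f := fun w : HeightOneSpectrum (𝓞 L) => w.asIdeal)
    (hfin.subset ?_) ?_
  · rintro _ ⟨w, hw, rfl⟩
    refine ⟨w.isPrime, ⟨?_⟩⟩
    rw [← Set.mem_singleton_iff.mp hw]
    rfl
  · intro w₁ _ w₂ _ h
    exact HeightOneSpectrum.ext h

theorem tendsto_finUnder743 :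
    Filter.Tendsto (finUnder743 K L) Filter.cofinite Filter.cofinite :=
  Filter.Tendsto.cofinite_of_finite_preimage_singleton (finite_fiber_finUnder743 K L)

theorem mapsTo_finLoc743 (w : HeightOneSpectrum (𝓞 L)) :
    Set.MapsTo (finLoc743 K L w)
      ((finUnder743 K L w).adicCompletionIntegers K : Set ((finUnder743 K L w).adicCompletion K))
      (w.adicCompletionIntegers L : Set (w.adicCompletion L)) := by
  intro c hc
  rw [SetLike.mem_coe, HeightOneSpectrum.mem_adicCompletionIntegers] at hc ⊢
  rw [valued_finLoc743]
  exact pow_le_one' hc _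

/-- Base change of the finite adeles. -/
def finBC743 : FiniteAdeleRing (𝓞 K) K →+* FiniteAdeleRing (𝓞 L) L :=
  RestrictedProduct.mapAlongRingHom (fun v : HeightOneSpectrum (𝓞 K) => v.adicCompletion K)
    (fun w : HeightOneSpectrum (𝓞 L) => w.adicCompletion L)
    (finUnder743 K L) (tendsto_finUnder743 K L) (fun w => finLoc743 K L w)
    (Filter.Eventually.of_forall (mapsTo_finLoc743 K L))

theorem finBC_apply743 (a : FiniteAdeleRing (𝓞 K) K) (w : HeightOneSpectrum (𝓞 L)) :
    finBC743 K L a w = finLoc743 K L w (a (finUnder743 K L w)) := rfl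

theorem continuous_finBC743 : Continuous (finBC743 K L) :=
  RestrictedProduct.mapAlong_continuous (fun v : HeightOneSpectrum (𝓞 K) => v.adicCompletion K)
    (fun w : HeightOneSpectrum (𝓞 L) => w.adicCompletion L)
    (finUnder743 K L) (tendsto_finUnder743 K L) (fun w => finLoc743 K L w)
    (Filter.Eventually.of_forall (mapsTo_finLoc743 K L)) (continuous_finLoc743 K L)

/-! ## The adeles -/

/-- **Base change of the adeles**, `𝔸_K → 𝔸_L`. -/
def bcAdele743 : NumberField.AdeleRing (𝓞 K) K →+* NumberField.AdeleRing (𝓞 L) L :=
  RingHom.prodMap (infBC743 K L) (finBC743 K L)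

theorem bcAdele_fst743 (a : NumberField.AdeleRing (𝓞 K) K) (u : InfinitePlace L) :
    (bcAdele743 K L a).1 u = infLoc743 K L u (a.1 (infUnder743 K L u)) := rfl

theorem bcAdele_snd743 (a : NumberField.AdeleRing (𝓞 K) K) (w : HeightOneSpectrum (𝓞 L)) :
    (bcAdele743 K L a).2 w = finLoc743 K L w (a.2 (finUnder743 K L w)) := rfl

theorem continuous_bcAdele743 : Continuous (bcAdele743 K L) :=
  (continuous_infBC743 K L).prodMap (continuous_finBC743 K L)

/-- Base change is the inclusion `K ⊂ L` on the principal adeles. -/
theorem bcAdele_algebraMap743 (x : K) :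
    bcAdele743 K L (algebraMap K (NumberField.AdeleRing (𝓞 K) K) x)
      = algebraMap L (NumberField.AdeleRing (𝓞 L) L) (algebraMap K L x) := by
  refine Prod.ext ?_ ?_
  · funext u
    exact infLoc_coe743 K L u x
  · refine FiniteAdeleRing.ext (R := 𝓞 L) (K := L) fun w => ?_
    exact finLoc_coe743 K L w x

/-- Base change of the ideles. -/
def bcUnits743 : (NumberField.AdeleRing (𝓞 K) K)ˣ →* (NumberField.AdeleRing (𝓞 L) L)ˣ :=
  Units.map (bcAdele743 K L).toMonoidHom

theorem bcUnits_val743 (z : (NumberField.AdeleRing (𝓞 K) K)ˣ) :
    ((bcUnits743 K L z : (NumberField.AdeleRing (𝓞 L) L)ˣ) : NumberField.AdeleRing (𝓞 L) L)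
      = bcAdele743 K L (z : NumberField.AdeleRing (𝓞 K) K) := rfl

theorem continuous_bcUnits743 : Continuous (bcUnits743 K L) :=
  Continuous.units_map (bcAdele743 K L).toMonoidHom (continuous_bcAdele743 K L)

/-- Base change maps the principal ideles to the principal ideles. -/
theorem bcUnits_principal743 (x : Kˣ) :
    bcUnits743 K L (Units.map (algebraMap K (NumberField.AdeleRing (𝓞 K) K)).toMonoidHom x)
      = Units.map (algebraMap L (NumberField.AdeleRing (𝓞 L) L)).toMonoidHom
          (Units.map (algebraMap K L).toMonoidHom x) :=
  Units.ext (bcAdele_algebraMap743 K L (x : K))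

end Fermat.Agent.LT.A2.H743
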