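import Mathlib
import Fermat.Agent.LT.A2.Spec

/-!
# Row LT, tower A2: adeles and ideles supported at one finite place

OFF-MAIN (helper743).  Pre-leaf for `A2.02 TorusCharC`.  Mathlib + the vocabulary of
`LT/A2/Spec.lean`, `LT/H556/A0.lean`.

* `adele_ext743` : two adeles with the same components are equal; `evInf743`, `evFin743`.
* `adAt1_743 v c`, `adAt0_743 v c` : the adele with component `c` at `v` and `1` (resp. `0`) at
  every other place, finite or infinite.
* `ideleAt743 v c hc` : the idele with component `c ≠ 0` at `v` and `1` elsewhere;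
  `isIdeleAt_ideleAt743`, `ideleAt_mul743`, `eq_ideleAt743` (an idele supported at `v` is
  `ideleAt743 v` of its component), `isUnitIdeleAt_ideleAt743`, `isUnifIdeleAt_ideleAt743`,
  `exists_unit_of_unif743` (two uniformiser ideles at `v` differ by a unit idele at `v`).
-/

set_option autoImplicit false
set_option linter.unusedSectionVars false

open IsDedekindDomain NumberField
open scoped MatrixGroups

noncomputable section

namespace Fermat.Agent.LT.A2.H743

open Fermat.Agent.LT.H556 Fermat.Agent.LT.A2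

variable {K : Type} [Field K] [NumberField K]

/-! ## Components -/

theorem adele_ext743 {a b : A0.Adl K} (h1 : ∀ u : InfinitePlace K, a.1 u = b.1 u)
    (h2 : ∀ v : HeightOneSpectrum (𝓞 K), a.2 v = b.2 v) : a = b :=
  Prod.ext (funext h1) (FiniteAdeleRing.ext (R := 𝓞 K) (K := K) h2)

/-- The component at the infinite place `u`, as a ring homomorphism. -/
def evInf743 (u : InfinitePlace K) : A0.Adl K →+* u.Completion :=
  (Pi.evalRingHom (fun u : InfinitePlace K => u.Completion) u).comp
    (RingHom.fst (InfiniteAdeleRing K) (FiniteAdeleRing (𝓞 K) K))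

/-- The component at the finite place `v`, as a ring homomorphism. -/
def evFin743 (v : HeightOneSpectrum (𝓞 K)) : A0.Adl K →+* v.adicCompletion K :=
  (RestrictedProduct.evalRingHom (fun v : HeightOneSpectrum (𝓞 K) => v.adicCompletion K) v).comp
    (RingHom.snd (InfiniteAdeleRing K) (FiniteAdeleRing (𝓞 K) K))

@[simp] theorem evInf_apply743 (u : InfinitePlace K) (a : A0.Adl K) : evInf743 u a = a.1 u := rfl

@[simp] theorem evFin_apply743 (v : HeightOneSpectrum (𝓞 K)) (a : A0.Adl K) :
    evFin743 v a = a.2 v := rfl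

theorem fst_mul743 (a b : A0.Adl K) (u : InfinitePlace K) : (a * b).1 u = a.1 u * b.1 u := rfl
theorem snd_mul743 (a b : A0.Adl K) (v : HeightOneSpectrum (𝓞 K)) :
    (a * b).2 v = a.2 v * b.2 v := rfl
theorem fst_add743 (a b : A0.Adl K) (u : InfinitePlace K) : (a + b).1 u = a.1 u + b.1 u := rfl
theorem snd_add743 (a b : A0.Adl K) (v : HeightOneSpectrum (𝓞 K)) :
    (a + b).2 v = a.2 v + b.2 v := rfl
theorem fst_one743 (u : InfinitePlace K) : (1 : A0.Adl K).1 u = 1 := rfl
theorem snd_one743 (v : HeightOneSpectrum (𝓞 K)) : (1 : A0.Adl K).2 v = 1 := rfl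
theorem fst_zero743 (u : InfinitePlace K) : (0 : A0.Adl K).1 u = 0 := rfl
theorem snd_zero743 (v : HeightOneSpectrum (𝓞 K)) : (0 : A0.Adl K).2 v = 0 := rfl

/-! ## Adeles supported at one finite place -/

open Classical in
/-- The finite adele with component `c` at `v` and `1` at every other finite place. -/
def finAt1_743 (v : HeightOneSpectrum (𝓞 K)) (c : v.adicCompletion K) :
    FiniteAdeleRing (𝓞 K) K :=
  ⟨Pi.mulSingle v c, Filter.eventually_cofinite.2 ((Set.finite_singleton v).subset fun v' hv' => by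
    by_contra h
    apply hv'
    rw [Pi.mulSingle_eq_of_ne h]
    exact one_mem _)⟩

open Classical in
/-- The finite adele with component `c` at `v` and `0` at every other finite place. -/
def finAt0_743 (v : HeightOneSpectrum (𝓞 K)) (c : v.adicCompletion K) :
    FiniteAdeleRing (𝓞 K) K :=
  ⟨Pi.single v c, Filter.eventually_cofinite.2 ((Set.finite_singleton v).subset fun v' hv' => by
    by_contra h
    apply hv'
    rw [Pi.single_eq_of_ne h]
    exact zero_mem _)⟩

/-- The adele with component `c` at `v` and `1` at every other place. -/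
def adAt1_743 (v : HeightOneSpectrum (𝓞 K)) (c : v.adicCompletion K) : A0.Adl K :=
  ((1 : InfiniteAdeleRing K), finAt1_743 v c)

/-- The adele with component `c` at `v` and `0` at every other place. -/
def adAt0_743 (v : HeightOneSpectrum (𝓞 K)) (c : v.adicCompletion K) : A0.Adl K :=
  ((0 : InfiniteAdeleRing K), finAt0_743 v c)

open Classical in
@[simp] theorem adAt1_same743 (v : HeightOneSpectrum (𝓞 K)) (c : v.adicCompletion K) :
    (adAt1_743 v c).2 v = c := Pi.mulSingle_eq_same v c

open Classical in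
theorem adAt1_ne743 (v : HeightOneSpectrum (𝓞 K)) (c : v.adicCompletion K)
    {v' : HeightOneSpectrum (𝓞 K)} (h : v' ≠ v) : (adAt1_743 v c).2 v' = 1 :=
  Pi.mulSingle_eq_of_ne h c

@[simp] theorem adAt1_inf743 (v : HeightOneSpectrum (𝓞 K)) (c : v.adicCompletion K)
    (u : InfinitePlace K) : (adAt1_743 v c).1 u = 1 := rfl

open Classical in
@[simp] theorem adAt0_same743 (v : HeightOneSpectrum (𝓞 K)) (c : v.adicCompletion K) :
    (adAt0_743 v c).2 v = c := Pi.single_eq_same v c

open Classical in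
theorem adAt0_ne743 (v : HeightOneSpectrum (𝓞 K)) (c : v.adicCompletion K)
    {v' : HeightOneSpectrum (𝓞 K)} (h : v' ≠ v) : (adAt0_743 v c).2 v' = 0 :=
  Pi.single_eq_of_ne h c

@[simp] theorem adAt0_inf743 (v : HeightOneSpectrum (𝓞 K)) (c : v.adicCompletion K)
    (u : InfinitePlace K) : (adAt0_743 v c).1 u = 0 := rfl

theorem adAt1_mul743 (v : HeightOneSpectrum (𝓞 K)) (c c' : v.adicCompletion K) :
    adAt1_743 v c * adAt1_743 v c' = adAt1_743 v (c * c') := by
  refine adele_ext743 (fun u => ?_) (fun v' => ?_)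
  · rw [fst_mul743, adAt1_inf743, adAt1_inf743, adAt1_inf743, one_mul]
  · by_cases h : v' = v
    · subst h
      rw [snd_mul743, adAt1_same743, adAt1_same743, adAt1_same743]
    · rw [snd_mul743, adAt1_ne743 v c h, adAt1_ne743 v c' h, adAt1_ne743 v _ h, one_mul]

theorem adAt1_one743 (v : HeightOneSpectrum (𝓞 K)) :
    adAt1_743 v (1 : v.adicCompletion K) = 1 := by
  refine adele_ext743 (fun u => rfl) (fun v' => ?_)
  by_cases h : v' = v
  · subst h
    rw [adAt1_same743, snd_one743]
  · rw [adAt1_ne743 v _ h, snd_one743]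

/-! ## Ideles supported at one finite place -/

/-- The idele with component `c ≠ 0` at `v` and `1` at every other place. -/
def ideleAt743 (v : HeightOneSpectrum (𝓞 K)) (c : v.adicCompletion K) (hc : c ≠ 0) :
    (A0.Adl K)ˣ where
  val := adAt1_743 v c
  inv := adAt1_743 v c⁻¹
  val_inv := by rw [adAt1_mul743, mul_inv_cancel₀ hc, adAt1_one743]
  inv_val := by rw [adAt1_mul743, inv_mul_cancel₀ hc, adAt1_one743]

@[simp] theorem ideleAt_val743 (v : HeightOneSpectrum (𝓞 K)) (c : v.adicCompletion K)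
    (hc : c ≠ 0) : ((ideleAt743 v c hc : (A0.Adl K)ˣ) : A0.Adl K) = adAt1_743 v c := rfl

theorem isIdeleAt_ideleAt743 (v : HeightOneSpectrum (𝓞 K)) (c : v.adicCompletion K)
    (hc : c ≠ 0) : IsIdeleAt v (ideleAt743 v c hc) :=
  ⟨fun _ => rfl, fun _ h => adAt1_ne743 v c h⟩

theorem isUnitIdeleAt_ideleAt743 (v : HeightOneSpectrum (𝓞 K)) (c : v.adicCompletion K)
    (hc : c ≠ 0) (h : Valued.v c = 1) : IsUnitIdeleAt v (ideleAt743 v c hc) :=
  ⟨isIdeleAt_ideleAt743 v c hc, by rw [ideleAt_val743, adAt1_same743]; exact h⟩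

theorem isUnifIdeleAt_ideleAt743 (v : HeightOneSpectrum (𝓞 K)) (c : v.adicCompletion K)
    (hc : c ≠ 0) (h : Valued.v c = WithZero.exp (-1 : ℤ)) :
    IsUnifIdeleAt v (ideleAt743 v c hc) :=
  ⟨isIdeleAt_ideleAt743 v c hc, by rw [ideleAt_val743, adAt1_same743]; exact h⟩

theorem ideleAt_mul743 (v : HeightOneSpectrum (𝓞 K)) (c c' : v.adicCompletion K)
    (hc : c ≠ 0) (hc' : c' ≠ 0) :
    ideleAt743 v c hc * ideleAt743 v c' hc' = ideleAt743 v (c * c') (mul_ne_zero hc hc') :=
  Units.ext (adAt1_mul743 v c c')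

/-- The component at `v` of an idele is not zero. -/
theorem idele_snd_ne_zero743 (z : (A0.Adl K)ˣ) (v : HeightOneSpectrum (𝓞 K)) :
    (z : A0.Adl K).2 v ≠ 0 := by
  intro h
  have h1 : ((z : A0.Adl K) * ((z⁻¹ : (A0.Adl K)ˣ) : A0.Adl K)).2 v = 1 := by
    rw [Units.mul_inv, snd_one743]
  rw [snd_mul743, h, zero_mul] at h1
  exact zero_ne_one h1

/-- An idele supported at `v` is `ideleAt743 v` of its component at `v`. -/
theorem eq_ideleAt743 {v : HeightOneSpectrum (𝓞 K)} {z : (A0.Adl K)ˣ} (hz : IsIdeleAt v z) :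
    z = ideleAt743 v ((z : A0.Adl K).2 v) (idele_snd_ne_zero743 z v) := by
  refine Units.ext (adele_ext743 (fun u => ?_) (fun v' => ?_))
  · rw [ideleAt_val743, adAt1_inf743]
    exact hz.1 u
  · by_cases h : v' = v
    · subst h
      rw [ideleAt_val743, adAt1_same743]
    · rw [ideleAt_val743, adAt1_ne743 v _ h]
      exact hz.2 v' h

/-- Two uniformiser ideles at `v` differ by a unit idele at `v`. -/
theorem exists_unit_of_unif743 {v : HeightOneSpectrum (𝓞 K)} {z z' : (A0.Adl K)ˣ}
    (hz : IsUnifIdeleAt v z) (hz' : IsUnifIdeleAt v z') :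
    ∃ y : (A0.Adl K)ˣ, IsUnitIdeleAt v y ∧ z' = z * y := by
  have hc := idele_snd_ne_zero743 z v
  have hc' := idele_snd_ne_zero743 z' v
  refine ⟨ideleAt743 v (((z : A0.Adl K).2 v)⁻¹ * (z' : A0.Adl K).2 v)
    (mul_ne_zero (inv_ne_zero hc) hc'), isUnitIdeleAt_ideleAt743 v _ _ ?_, ?_⟩
  · rw [map_mul, map_inv₀, hz.2, hz'.2]
    exact inv_mul_cancel₀ WithZero.exp_ne_zero
  · refine Units.ext (adele_ext743 (fun u => ?_) (fun v' => ?_))
    · rw [Units.val_mul, fst_mul743, ideleAt_val743, adAt1_inf743, mul_one, hz'.1.1 u, hz.1.1 u]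
    · by_cases h : v' = v
      · subst h
        rw [Units.val_mul, snd_mul743, ideleAt_val743, adAt1_same743, ← mul_assoc,
          mul_inv_cancel₀ hc, one_mul]
      · rw [Units.val_mul, snd_mul743, ideleAt_val743, adAt1_ne743 v _ h, mul_one,
          hz'.1.2 v' h, hz.1.2 v' h]

end Fermat.Agent.LT.A2.H743
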